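import Fermat.Agent.EC.KernelOfReduction
import Fermat.Agent.EC.Inertia
import Mathlib

set_option autoImplicit false

/-! # Rational numbers and places of the algebraic closure -/

namespace Fermat.Agent.S13lib

open Fermat.Agent.EC

variable {L : Type*} [Field L] [CharZero L] {A : ValuationSubring L} {ℓ : ℕ}

omit [CharZero L] in
theorem v_prime_lt_one (hA : A.LiesOverPrime ℓ) : A.valuation (ℓ : L) < 1 :=
  (ValuationSubring.mem_nonunits_iff A).mp hA

theorem v_prime_pos (hℓ : ℓ.Prime) : 0 < A.valuation (ℓ : L) := by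
  rw [zero_lt_iff, map_ne_zero]
  exact_mod_cast hℓ.ne_zero

omit [CharZero L] in
theorem v_intCast_eq_one' (hℓ : ℓ.Prime) (hA : A.LiesOverPrime ℓ) {n : ℤ}
    (hn : ¬ (ℓ : ℤ) ∣ n) : A.valuation (n : L) = 1 := by
  have hℓ' : Prime (ℓ : ℤ) := Nat.prime_iff_prime_int.mp hℓ
  obtain ⟨a, b, hab⟩ := (hℓ'.coprime_iff_not_dvd.mpr hn)
  have hvq : A.valuation ((ℓ : ℤ) : L) < 1 := by
    have h := (ValuationSubring.mem_nonunits_iff A).mp hA
    simpa using h
  refine le_antisymm (v_intCast_le_one _ n) ?_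
  by_contra hlt
  rw [not_le] at hlt
  have h1 : ((a * (ℓ : ℤ) + b * n : ℤ) : L) = 1 := by rw [hab]; norm_num
  have h2 : A.valuation ((a * (ℓ : ℤ) + b * n : ℤ) : L) < 1 := by
    push_cast
    refine v_add_lt_one _ (v_mul_lt_one _ (v_intCast_le_one _ a) ?_)
      (v_mul_lt_one _ (v_intCast_le_one _ b) hlt)
    simpa using hvq
  rw [h1, map_one] at h2
  exact lt_irrefl _ h2

omit [CharZero L] in
theorem v_intCast_lt_one (hA : A.LiesOverPrime ℓ) {n : ℤ} (hn : (ℓ : ℤ) ∣ n) :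
    A.valuation (n : L) < 1 := by
  obtain ⟨m, rfl⟩ := hn
  push_cast
  exact v_mul_lt_one' _ (v_prime_lt_one hA) (v_intCast_le_one _ m)

omit [CharZero L] in
/-- the valuation of an integer is a power of the valuation of `ℓ` -/
theorem exists_v_int (hℓ : ℓ.Prime) (hA : A.LiesOverPrime ℓ) {n : ℤ} (hn : n ≠ 0) :
    ∃ k : ℕ, ∃ m : ℤ, n = ℓ ^ k * m ∧ ¬ (ℓ : ℤ) ∣ m ∧
      A.valuation (n : L) = A.valuation (ℓ : L) ^ k := by
  have hfin : FiniteMultiplicity (ℓ : ℤ) n := by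
    rw [Int.finiteMultiplicity_iff]
    exact ⟨by simpa using hℓ.one_lt.ne', hn⟩
  obtain ⟨m, hm, hm'⟩ := hfin.exists_eq_pow_mul_and_not_dvd
  refine ⟨_, m, hm, hm', ?_⟩
  conv_lhs => rw [hm]
  push_cast
  rw [map_mul, v_intCast_eq_one' hℓ hA hm', mul_one, map_pow]

theorem exists_v_rat (hℓ : ℓ.Prime) (hA : A.LiesOverPrime ℓ) {q : ℚ} (hq : q ≠ 0) :
    ∃ k : ℤ, A.valuation (q : L) = A.valuation (ℓ : L) ^ k := by
  obtain ⟨k, -, -, -, hk⟩ := exists_v_int (L := L) hℓ hA (Rat.num_ne_zero.mpr hq)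
  obtain ⟨j, -, -, -, hj⟩ := exists_v_int (L := L) hℓ hA (n := (q.den : ℤ))
    (by exact_mod_cast q.den_ne_zero)
  refine ⟨(k : ℤ) - j, ?_⟩
  have h0 : A.valuation (ℓ : L) ≠ 0 := (v_prime_pos hℓ).ne'
  rw [Rat.cast_def, map_div₀, hk, zpow_sub₀ h0, zpow_natCast, zpow_natCast]
  congr 1
  exact_mod_cast hj

/-- a rational number which is not integral has `v (ℓ q) ≥ 1` -/
theorem one_le_of_one_lt (hℓ : ℓ.Prime) (hA : A.LiesOverPrime ℓ) {q : ℚ}
    (hq : 1 < A.valuation (q : L)) : 1 ≤ A.valuation ((ℓ : L) * (q : L)) := by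
  have hq0 : q ≠ 0 := by
    rintro rfl
    rw [Rat.cast_zero, map_zero] at hq
    exact absurd hq (not_lt.mpr zero_le)
  obtain ⟨k, hk⟩ := exists_v_rat (L := L) hℓ hA hq0
  have h0 := v_prime_pos (A := A) hℓ
  have h1 := v_prime_lt_one hA
  rw [map_mul, hk]
  rw [hk] at hq
  have hk0 : k ≤ -1 := by
    by_contra hcon
    have : 0 ≤ k := by omega
    obtain ⟨n, rfl⟩ := Int.eq_ofNat_of_zero_le this
    rw [zpow_natCast] at hq
    exact absurd hq (not_lt.mpr (pow_le_one₀ zero_le h1.le))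
  obtain ⟨n, hn⟩ := Int.eq_ofNat_of_zero_le (show 0 ≤ -1 - k by omega)
  have hk' : k = -1 - n := by omega
  rw [hk', zpow_sub₀ h0.ne', zpow_neg_one, zpow_natCast, ← mul_div_assoc,
    mul_inv_cancel₀ h0.ne', one_le_div₀ (pow_pos h0 n)]
  exact pow_le_one₀ zero_le h1.le

/-- for `ℓ = 2`, a rational unit is congruent to 1. -/
theorem v_sub_one_lt_one (hA : A.LiesOverPrime 2) {q : ℚ}
    (hq : A.valuation (q : L) = 1) : A.valuation ((q : L) - 1) < 1 := by
  have hdn : ¬ ((2 : ℤ) ∣ q.num ∧ (2 : ℤ) ∣ (q.den : ℤ)) := by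
    rintro ⟨h1, h2⟩
    have hc : Nat.Coprime q.num.natAbs q.den := q.reduced
    have h3 : 2 ∣ q.num.natAbs := Int.natCast_dvd.mp h1
    have h4 : 2 ∣ q.den := by exact_mod_cast h2
    have := Nat.dvd_gcd h3 h4
    rw [hc] at this
    omega
  have hd0 : (q.den : L) ≠ 0 := by exact_mod_cast q.den_ne_zero
  have hmul : A.valuation (q.num : L) = A.valuation (q.den : L) := by
    rw [Rat.cast_def, map_div₀, div_eq_one_iff_eq ((map_ne_zero _).mpr hd0)] at hq
    exact hq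
  have hden : ¬ (2 : ℤ) ∣ (q.den : ℤ) := by
    intro h2
    have h1 : ¬ (2 : ℤ) ∣ q.num := fun h => hdn ⟨h, h2⟩
    have e1 := v_intCast_eq_one' (L := L) Nat.prime_two hA (n := q.num) (by exact_mod_cast h1)
    have e2 := v_intCast_lt_one (L := L) (ℓ := 2) hA (n := (q.den : ℤ)) (by exact_mod_cast h2)
    rw [Int.cast_natCast] at e2
    rw [e1] at hmul
    exact absurd hmul.symm e2.ne
  have hnum : ¬ (2 : ℤ) ∣ q.num := by
    intro h1
    have e1 := v_intCast_eq_one' (L := L) Nat.prime_two hA (n := (q.den : ℤ))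
      (by exact_mod_cast hden)
    have e2 := v_intCast_lt_one (L := L) (ℓ := 2) hA (n := q.num) (by exact_mod_cast h1)
    rw [Int.cast_natCast] at e1
    rw [e1] at hmul
    exact absurd hmul e2.ne
  have e1 := v_intCast_eq_one' (L := L) Nat.prime_two hA (n := (q.den : ℤ))
      (by exact_mod_cast hden)
  rw [Int.cast_natCast] at e1
  have e2 : (q : L) - 1 = ((q.num - q.den : ℤ) : L) / q.den := by
    rw [Rat.cast_def]; push_cast; field_simp
  rw [e2, map_div₀, e1, div_one]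
  apply v_intCast_lt_one (L := L) (ℓ := 2) hA
  have : (2 : ℤ) ∣ q.num - q.den := by omega
  exact_mod_cast this

omit [CharZero L] in
theorem exists_rat_of_fixed [Algebra ℚ L] [IsGalois ℚ L] {x : L}
    (h : ∀ σ : L ≃ₐ[ℚ] L, σ x = x) : ∃ q : ℚ, (q : L) = x := by
  obtain ⟨q, hq⟩ := (InfiniteGalois.mem_range_algebraMap_iff_fixed (k := ℚ) x).2 h
  exact ⟨q, by rw [← hq, eq_ratCast]⟩

end Fermat.Agent.S13lib
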