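import Fermat.Agent.S13lib.Slope

set_option autoImplicit false

namespace Fermat.Agent.S13lib

open WeierstrassCurve WeierstrassCurve.Affine WeierstrassCurve.Affine.Point
open Fermat.Agent.EC Fermat.Agent.DivPoly

variable {F : Type*} [Field F] {Γ₀ : Type*} [LinearOrderedCommGroupWithZero Γ₀]

theorem v_Δ_lt_one {v : Valuation F Γ₀} {W : WeierstrassCurve F} (hW : IntegralFor v W)
    (h3 : v W.a₃ < 1) (h4 : v W.a₄ < 1) (h6 : W.a₆ = 0) : v W.Δ < 1 := by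
  have hb4 : v W.b₄ < 1 := by
    rw [WeierstrassCurve.b₄]
    exact v_add_lt_one v (v_mul_lt_one v (v_ofNat_le_one v _) h4) (v_mul_lt_one v hW.a₁ h3)
  have hb6 : v W.b₆ < 1 := by
    rw [WeierstrassCurve.b₆, h6, mul_zero, add_zero]
    exact v_pow_lt_one v h3 two_ne_zero
  have hb8 : v W.b₈ < 1 := by
    rw [WeierstrassCurve.b₈, h6]
    have : W.a₁ ^ 2 * 0 + 4 * W.a₂ * 0 - W.a₁ * W.a₃ * W.a₄ + W.a₂ * W.a₃ ^ 2 - W.a₄ ^ 2
      = (W.a₂ * W.a₃) * W.a₃ - W.a₁ * W.a₃ * W.a₄ - W.a₄ ^ 2 := by ring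
    rw [this]
    refine v_sub_lt_one v (v_sub_lt_one v ?_ ?_) (v_pow_lt_one v h4 two_ne_zero)
    · exact v_mul_lt_one v (v_mul_le_one v hW.a₂ hW.a₃) h3
    · exact v_mul_lt_one v (v_mul_le_one v hW.a₁ hW.a₃) h4
  have e : W.Δ = - (W.b₂ ^ 2) * W.b₈ - 8 * W.b₄ ^ 2 * W.b₄ - 27 * W.b₆ * W.b₆
      + 9 * W.b₂ * W.b₄ * W.b₆ := by
    rw [WeierstrassCurve.Δ]; ring
  rw [e]
  refine v_add_lt_one v (v_sub_lt_one v (v_sub_lt_one v ?_ ?_) ?_) ?_
  · exact v_mul_lt_one v (by rw [Valuation.map_neg]; exact v_pow_le_one v hW.b₂ 2) hb8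
  · exact v_mul_lt_one v (v_mul_le_one v (v_ofNat_le_one v 8) (v_pow_le_one v hW.b₄ 2)) hb4
  · exact v_mul_lt_one v (v_mul_le_one v (v_ofNat_le_one v 27) hW.b₆) hb6
  · exact v_mul_lt_one v (v_mul_le_one v (v_mul_le_one v (v_ofNat_le_one v 9) hW.b₂) hW.b₄) hb6

theorem NS_of_good {v : Valuation F Γ₀} {W : WeierstrassCurve.Affine F} (hW : IntegralFor v W)
    (hΔ : v W.Δ = 1) (P : W.Point) : NS v P := by
  rcases eq_or_ne P 0 with h0 | hP
  · exact Or.inl h0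
  rcases lt_or_ge 1 (v (xc P)) with hx | hx
  · exact Or.inr (Or.inl hx)
  refine Or.inr (Or.inr ?_)
  by_contra hcon
  rw [not_or, not_le, not_le] at hcon
  obtain ⟨h1, h2⟩ := hcon
  have hy := yc_le_one v hW hP hx
  have e := DivPoly.equation hP
  let C : VariableChange F := ⟨1, xc P, 0, yc P⟩
  have hC : (C • (W : WeierstrassCurve F)).Δ = W.Δ := by
    rw [variableChange_Δ]; simp [C]
  have g1 : (C • (W : WeierstrassCurve F)).a₁ = W.a₁ := by rw [variableChange_a₁]; simp [C]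
  have g2 : (C • (W : WeierstrassCurve F)).a₂ = W.a₂ + 3 * xc P := by
    rw [variableChange_a₂]; simp [C]
  have g3 : (C • (W : WeierstrassCurve F)).a₃ = 2 * yc P + W.a₁ * xc P + W.a₃ := by
    rw [variableChange_a₃]; simp [C]; ring
  have g4 : (C • (W : WeierstrassCurve F)).a₄ =
      3 * xc P ^ 2 + 2 * W.a₂ * xc P + W.a₄ - W.a₁ * yc P := by
    rw [variableChange_a₄]; simp [C]; ring
  have g6 : (C • (W : WeierstrassCurve F)).a₆ = 0 := by
    rw [variableChange_a₆]; simp [C]; linear_combination -e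
  have hI : IntegralFor v (C • (W : WeierstrassCurve F)) := by
    refine ⟨?_, ?_, ?_, ?_, ?_⟩
    · rw [g1]; exact hW.a₁
    · rw [g2]; exact v_add_le_one v hW.a₂ (v_mul_le_one v (v_ofNat_le_one v 3) hx)
    · rw [g3]; exact h1.le
    · rw [g4]; exact h2.le
    · rw [g6]; simp
  have := v_Δ_lt_one hI (by rw [g3]; exact h1) (by rw [g4]; exact h2) g6
  rw [hC, hΔ] at this
  exact lt_irrefl _ this

end Fermat.Agent.S13lib
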