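import Fermat.Agent.S13lib.Slope

set_option autoImplicit false

/-! # Inertia on points reducing to a node -/

namespace Fermat.Agent.S13lib

open WeierstrassCurve WeierstrassCurve.Affine WeierstrassCurve.Affine.Point
open Fermat.Agent.EC Fermat.Agent.DivPoly

section decomp

variable {k L : Type*} [Field k] [Field L] [Algebra k L] {A : ValuationSubring L}

theorem decomp_valuation_lt {σ : L ≃ₐ[k] L} (hσ : σ ∈ A.decompositionSubgroup k) {x y : L}
    (h : A.valuation x < A.valuation y) : A.valuation (σ x) < A.valuation (σ y) := by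
  have hy : y ≠ 0 := by
    rintro rfl
    rw [_root_.map_zero] at h
    exact absurd zero_le (not_le.mpr h)
  rcases eq_or_ne x 0 with rfl | hx
  · rw [_root_.map_zero, _root_.map_zero]
    exact zero_lt_iff.mpr ((map_ne_zero _).mpr ((map_ne_zero σ).mpr hy))
  have hx' : 0 < A.valuation x := zero_lt_iff.mpr ((map_ne_zero _).mpr hx)
  have h1 : y / x ∉ A := by
    rw [← ValuationSubring.valuation_le_one_iff, map_div₀, div_le_one₀ hx', not_le]
    exact h
  have h2 : σ (y / x) ∉ A := fun h' => h1 ((decomp_mem_iff hσ _).mp h')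
  have hσx : 0 < A.valuation (σ x) := zero_lt_iff.mpr ((map_ne_zero _).mpr ((map_ne_zero σ).mpr hx))
  rw [← ValuationSubring.valuation_le_one_iff, map_div₀, map_div₀, div_le_one₀ hσx, not_le] at h2
  exact h2

theorem decomp_pow_mem {σ : L ≃ₐ[k] L} (x : L) (hx : IsAlgebraic k x) :
    ∃ m n : ℕ, m < n ∧ (σ ^ m) x = (σ ^ n) x := by
  classical
  have hfin : (minpoly k x).rootSet L |>.Finite := (minpoly k x).rootSet_finite L
  have hmem : ∀ n : ℕ, (σ ^ n) x ∈ (minpoly k x).rootSet L := by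
    intro n
    rw [Polynomial.mem_rootSet]
    refine ⟨minpoly.ne_zero hx.isIntegral, ?_⟩
    have : Polynomial.aeval ((σ ^ n) x) (minpoly k x) = (σ ^ n) (Polynomial.aeval x (minpoly k x)) :=
      Polynomial.aeval_algHom_apply (σ ^ n : L ≃ₐ[k] L).toAlgHom x _
    rw [this, minpoly.aeval, _root_.map_zero]
  have hninj : ¬ Function.Injective (fun n : ℕ => (σ ^ n) x) := by
    intro hinj
    exact (Set.infinite_of_injective_forall_mem hinj hmem) hfin
  rw [Function.Injective] at hninj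
  push Not at hninj
  obtain ⟨m, n, h, hne⟩ := hninj
  rcases lt_or_gt_of_ne hne with h' | h'
  · exact ⟨m, n, h', h⟩
  · exact ⟨n, m, h', h.symm⟩

/-- the decomposition group preserves the valuation -/
theorem decomp_valuation {σ : L ≃ₐ[k] L} (hσ : σ ∈ A.decompositionSubgroup k) {x : L}
    (hx : IsAlgebraic k x) : A.valuation (σ x) = A.valuation x := by
  obtain ⟨m, n, hmn, h⟩ := decomp_pow_mem (σ := σ) x hx
  rcases lt_trichotomy (A.valuation (σ x)) (A.valuation x) with hlt | heq | hlt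
  · exfalso
    have : StrictAnti (fun n : ℕ => A.valuation ((σ ^ n) x)) := by
      apply strictAnti_nat_of_succ_lt
      intro n
      induction n with
      | zero => simpa using hlt
      | succ n ih =>
        have := decomp_valuation_lt hσ ih
        rw [← AlgEquiv.mul_apply, ← AlgEquiv.mul_apply, ← pow_succ', ← pow_succ'] at this
        exact this
    exact (this hmn).ne (by simp only [h])
  · exact heq
  · exfalso
    have : StrictMono (fun n : ℕ => A.valuation ((σ ^ n) x)) := by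
      apply strictMono_nat_of_lt_succ
      intro n
      induction n with
      | zero => simpa using hlt
      | succ n ih =>
        have := decomp_valuation_lt hσ ih
        rw [← AlgEquiv.mul_apply, ← AlgEquiv.mul_apply, ← pow_succ', ← pow_succ'] at this
        exact this
    exact (this hmn).ne (by simp only [h])

end decomp

/-- A node of the reduction of `W` near a 2-torsion point `(x0, y0)`. -/
structure NodeAt {F : Type*} [Field F] {Γ₀ : Type*} [LinearOrderedCommGroupWithZero Γ₀]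
    (v : Valuation F Γ₀) (W : WeierstrassCurve.Affine F) (x0 y0 : F) : Prop where
  eqn : y0 ^ 2 + W.a₁ * x0 * y0 + W.a₃ * y0 = x0 ^ 3 + W.a₂ * x0 ^ 2 + W.a₄ * x0 + W.a₆
  two : 2 * y0 + W.a₁ * x0 + W.a₃ = 0
  vx : v x0 ≤ 1
  vy : v y0 ≤ 1
  a4 : v (3 * x0 ^ 2 + 2 * W.a₂ * x0 + W.a₄ - W.a₁ * y0) < 1
  a40 : 3 * x0 ^ 2 + 2 * W.a₂ * x0 + W.a₄ - W.a₁ * y0 ≠ 0
  disc : v (W.a₁ ^ 2 + 4 * (W.a₂ + 3 * x0)) = 1

theorem NodeAt.NS_of {F : Type*} [Field F] {Γ₀ : Type*} [LinearOrderedCommGroupWithZero Γ₀]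
    {v : Valuation F Γ₀} {W : WeierstrassCurve.Affine F} {x0 y0 : F} (hN : NodeAt v W x0 y0)
    (hW : IntegralFor v W) {P : W.Point} (hP : P ≠ 0) (h : 1 ≤ v (xc P - x0)) : NS v P := by
  rcases lt_or_ge 1 (v (xc P)) with hx | hx
  · exact Or.inr (Or.inl hx)
  refine Or.inr (Or.inr ?_)
  by_contra hcon
  rw [not_or, not_le, not_le] at hcon
  obtain ⟨h1, h2⟩ := hcon
  have hy := yc_le_one v hW hP hx
  have hu : v (xc P - x0) ≤ 1 := v_sub_le_one v hx hN.vx
  have hw : v (yc P - y0) ≤ 1 := v_sub_le_one v hy hN.vy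
  have hu1 : v (xc P - x0) = 1 := le_antisymm hu h
  have e := DivPoly.equation hP
  have key : (xc P - x0) ^ 3 = (3 * x0 ^ 2 + 2 * W.a₂ * x0 + W.a₄ - W.a₁ * y0) * (xc P - x0)
      + (xc P - x0) * (3 * xc P ^ 2 + 2 * W.a₂ * xc P + W.a₄ - W.a₁ * yc P)
      - (yc P - y0) * (2 * yc P + W.a₁ * xc P + W.a₃) := by
    linear_combination (2 : F) * e - 2 * hN.eqn - (yc P - y0) * hN.two
  have h3 : v ((xc P - x0) ^ 3) < 1 := by
    rw [key]
    refine v_sub_lt_one v (v_add_lt_one v (v_mul_lt_one' v hN.a4 hu) (v_mul_lt_one v hu h2))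
      (v_mul_lt_one v hw h1)
  rw [map_pow, hu1, one_pow] at h3
  exact lt_irrefl _ h3

theorem v_ge_one_of_mul {F : Type*} [Field F] {Γ₀ : Type*} [LinearOrderedCommGroupWithZero Γ₀]
    {v : Valuation F Γ₀} {a d : F} {c : Γ₀} (hc : 0 < c) (h1 : v (a * d) = c) (h2 : v d ≤ c) :
    1 ≤ v a := by
  by_contra hcon
  rw [not_le] at hcon
  rw [map_mul] at h1
  have hd : 0 < v d := by
    rw [zero_lt_iff]
    rintro h0
    rw [h0, mul_zero] at h1
    exact hc.ne h1
  have : v a * v d < 1 * v d := by gcongr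
  rw [h1, one_mul] at this
  exact absurd h2 (not_le.mpr this)

section main

variable {k L : Type*} [Field k] [Field L] [Algebra k L] [DecidableEq L]
  {A : ValuationSubring L} {W : WeierstrassCurve.Affine k}

theorem node_aux {F : Type*} [Field F] {Γ₀ : Type*} [LinearOrderedCommGroupWithZero Γ₀]
    (v : Valuation F Γ₀) {a1 a2 a4 s t s' t' l : F} (ha1 : v a1 ≤ 1) (ha2 : v a2 ≤ 1)
    (ha4 : v a4 < 1) (hs : v s ≤ 1) (ht : v t ≤ 1) (hs' : v s' ≤ 1)
    (hds : v (s' - s) < 1) (hdt : v (t' - t) < 1)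
    (e : t ^ 2 + a1 * s * t = a4 * s ^ 3 + a2 * s ^ 2 + s)
    (h1 : l * (s' - s) = t' + t + a1 * s)
    (h2 : l * (t' - t) = a4 * (s' ^ 2 + s' * s + s ^ 2) + a2 * (s' + s) + 1 - a1 * t') :
    1 < v l := by
  by_contra hl
  rw [not_lt] at hl
  have g1 : v (2 * t + a1 * s) < 1 := by
    have : 2 * t + a1 * s = l * (s' - s) - (t' - t) := by rw [h1]; ring
    rw [this]
    exact v_sub_lt_one v (v_mul_lt_one v hl hds) hdt
  have g2 : v (2 * a2 * s + 1 - a1 * t) < 1 := by
    have : 2 * a2 * s + 1 - a1 * t = l * (t' - t) - a4 * (s' ^ 2 + s' * s + s ^ 2)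
        - a2 * (s' - s) + a1 * (t' - t) := by rw [h2]; ring
    rw [this]
    refine v_add_lt_one v (v_sub_lt_one v (v_sub_lt_one v (v_mul_lt_one v hl hdt)
      (v_mul_lt_one' v ha4 ?_)) (v_mul_lt_one v ha2 hds)) (v_mul_lt_one v ha1 hdt)
    exact v_add_le_one v (v_add_le_one v (v_pow_le_one v hs' 2) (v_mul_le_one v hs' hs))
      (v_pow_le_one v hs 2)
  have g3 : v s < 1 := by
    have : s = t * (2 * t + a1 * s) - s * (2 * a2 * s + 1 - a1 * t) - 2 * s ^ 3 * a4 +
      (2 * (a4 * s ^ 3 + a2 * s ^ 2 + s) - 2 * (t ^ 2 + a1 * s * t)) := by ring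
    rw [e, sub_self, add_zero] at this
    rw [this]
    exact v_sub_lt_one v (v_sub_lt_one v (v_mul_lt_one v ht g1) (v_mul_lt_one v hs g2))
      (v_mul_lt_one v (v_mul_le_one v (v_ofNat_le_one v 2) (v_pow_le_one v hs 3)) ha4)
  have g4 : v t < 1 := by
    have h5 : v (t ^ 2) < 1 := by
      have : t ^ 2 = a4 * s ^ 3 + a2 * s ^ 2 + s - a1 * s * t := by rw [← e]; ring
      rw [this]
      refine v_sub_lt_one v (v_add_lt_one v (v_add_lt_one v ?_ ?_) g3) ?_
      · exact v_mul_lt_one' v ha4 (v_pow_le_one v hs 3)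
      · exact v_mul_lt_one v ha2 (v_pow_lt_one v g3 two_ne_zero)
      · exact v_mul_lt_one' v (v_mul_lt_one v ha1 g3) ht
    rw [map_pow] at h5
    exact lt_of_not_ge fun h6 => absurd h5 (not_lt.mpr (one_le_pow₀ h6))
  have g5 : v (1 : F) < 1 := by
    have : (1 : F) = (2 * a2 * s + 1 - a1 * t) - 2 * a2 * s + a1 * t := by ring
    rw [this]
    exact v_add_lt_one v (v_sub_lt_one v g2 (v_mul_lt_one v
      (v_mul_le_one v (v_ofNat_le_one v 2) ha2) g3)) (v_mul_lt_one v ha1 g4)
  rw [map_one] at g5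
  exact lt_irrefl _ g5

theorem NS_smul_sub [Algebra.IsAlgebraic k L] {x0 y0 : k}
    (hN : NodeAt A.valuation (W⁄L) (algebraMap k L x0) (algebraMap k L y0))
    (hW : IntegralFor A.valuation (W⁄L)) (P : (W⁄L).Point) {σ : L ≃ₐ[k] L}
    (hσ : σ ∈ A.inertiaSubgroupIn k) : NS A.valuation (σ • P - P) := by
  set v := A.valuation with hv
  rcases eq_or_ne P 0 with rfl | hP0
  · rw [smul_zero, sub_zero]; exact Or.inl rfl
  rcases eq_or_ne (σ • P) P with he | hne
  · rw [he, sub_self]; exact Or.inl rfl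
  have hne' : σ • P - P ≠ 0 := sub_ne_zero.mpr hne
  rcases le_or_gt 1 (v (xc P - algebraMap k L x0)) with hx | hx
  · have h1 := E1_smul_sub_of_NS hW (hN.NS_of hW hP0 hx) hσ
    exact Or.inr (Or.inl ((E1_iff_xc hne').mp h1))
  apply hN.NS_of hW hne'
  obtain ⟨l, h1, h2, h3⟩ := exists_slope_sub (smul_ne_zero' hP0 (σ := σ)) hP0 hne
  rw [xc_smul] at h1
  rw [xc_smul, yc_smul] at h2 h3
  have eP := DivPoly.equation hP0
  have hxP : v (xc P) ≤ 1 := by
    have : xc P = (xc P - algebraMap k L x0) + algebraMap k L x0 := by ring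
    rw [this]; exact v_add_le_one v hx.le hN.vx
  have hyP := yc_le_one v hW hP0 hxP
  obtain ⟨hNe, hN2, hNx, hNy, hNa4, hNa40, hNd⟩ := hN
  obtain ⟨hw1, hw2, hw3, hw4, hw6⟩ := hW
  -- generalize
  have hσx0 : σ (algebraMap k L x0) = algebraMap k L x0 := σ.commutes _
  have hσy0 : σ (algebraMap k L y0) = algebraMap k L y0 := σ.commutes _
  have hσ1 : σ (W⁄L).a₁ = (W⁄L).a₁ := σ.commutes _
  have hσ2 : σ (W⁄L).a₂ = (W⁄L).a₂ := σ.commutes _
  have hσ4 : σ (W⁄L).a₄ = (W⁄L).a₄ := σ.commutes _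
  generalize algebraMap k L x0 = X0 at *
  generalize algebraMap k L y0 = Y0 at *
  generalize (W⁄L).a₁ = a1 at *
  generalize (W⁄L).a₂ = a2 at *
  generalize (W⁄L).a₃ = a3 at *
  generalize (W⁄L).a₄ = a4 at *
  generalize (W⁄L).a₆ = a6 at *
  generalize xc (σ • P - P) = xR at *
  generalize xc P = x at *
  generalize yc P = y at *
  obtain ⟨u, rfl⟩ : ∃ u, x = u + X0 := ⟨x - X0, by ring⟩
  obtain ⟨w, rfl⟩ : ∃ w, y = w + Y0 := ⟨y - Y0, by ring⟩
  simp only [_root_.map_add, hσx0, hσy0] at h1 h2 h3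
  rw [add_sub_cancel_right] at hx
  set b4 := 3 * X0 ^ 2 + 2 * a2 * X0 + a4 - a1 * Y0 with hb4
  set b2 := a2 + 3 * X0 with hb2
  have vb2 : v b2 ≤ 1 := v_add_le_one v hw2 (v_mul_le_one v (v_ofNat_le_one v 3) hNx)
  have hσb4 : σ b4 = b4 := by
    rw [hb4]; simp only [map_sub, _root_.map_add, map_mul, map_pow, map_ofNat, hσx0, hσ2, hσ4, hσ1, hσy0]
  have e : w ^ 2 + a1 * u * w = u ^ 3 + b2 * u ^ 2 + b4 * u := by
    rw [hb4, hb2]; linear_combination eP - hNe - w * hN2
  have k2 : l * (σ u - u) = σ w + w + a1 * u := by linear_combination h2 + hN2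
  have k3 : l * (σ w - w) = σ u ^ 2 + σ u * u + u ^ 2 + b2 * (σ u + u) + b4 - a1 * σ w := by
    rw [hb4, hb2]; linear_combination h3
  have k1 : xR - X0 = l ^ 2 + a1 * l - b2 - σ u - u := by
    rw [hb2]; linear_combination h1
  have vu : v (σ u) = v u := decomp_valuation (decomp_of_inertia hσ) (Algebra.IsAlgebraic.isAlgebraic u)
  have hx' : v (σ u) < 1 := by rw [vu]; exact hx
  rcases lt_or_ge (v b4) (v u) with hc | hc
  · -- case 1
    have hu0' : 0 < v u := lt_of_le_of_lt zero_le hc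
    have hu0 : u ≠ 0 := by rintro rfl; rw [_root_.map_zero] at hu0'; exact lt_irrefl _ hu0'
    have hσu0 : σ u ≠ 0 := (map_ne_zero σ).mpr hu0
    obtain ⟨η, rfl⟩ : ∃ η, w = η * u := ⟨w / u, by field_simp⟩
    have hr : v (b4 / u) < 1 := by
      rw [map_div₀]; exact (div_lt_one₀ hu0').mpr hc
    have hr' : v (b4 / σ u) < 1 := by
      rw [map_div₀, vu]; exact (div_lt_one₀ hu0').mpr hc
    have eη : η ^ 2 + a1 * η = u + b2 + b4 / u := by
      apply mul_right_cancel₀ (pow_ne_zero 2 hu0)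
      have : (u + b2 + b4 / u) * u ^ 2 = u ^ 3 + b2 * u ^ 2 + b4 * u := by field_simp
      rw [this, ← e]; ring
    have vη : v η ≤ 1 := v_root_le_one v hw1
      (v_add_le_one v (v_add_le_one v hx.le vb2) hr.le) eη
    have eη' : σ η ^ 2 + a1 * σ η = σ u + b2 + b4 / σ u := by
      have hσb2 : σ b2 = b2 := by
        rw [hb2]; simp only [_root_.map_add, map_mul, map_ofNat, hσx0, hσ2]
      have := congrArg σ eη
      simpa only [_root_.map_add, map_mul, map_pow, map_div₀, hσ1, hσb2, hσb4] using this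
    have vdη : v (σ η - η) < 1 := inertia_sub_lt_one hσ ((A.valuation_le_one_iff _).mp vη)
    have v2η : v (2 * η + a1) = 1 := by
      have h5 : v ((2 * η + a1) ^ 2) = 1 := by
        have : (2 * η + a1) ^ 2 = (a1 ^ 2 + 4 * b2) + 4 * (u + b4 / u) := by
          linear_combination 4 * eη
        rw [this, Valuation.map_add_eq_of_lt_left, hNd]
        rw [hNd]
        exact v_mul_lt_one v (v_ofNat_le_one v 4) (v_add_lt_one v hx hr)
      rw [map_pow] at h5
      exact (pow_eq_one_iff.mp h5).resolve_right two_ne_zero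
    have vD : v (σ η + η + a1) = 1 := by
      have : σ η + η + a1 = (2 * η + a1) + (σ η - η) := by ring
      rw [this, Valuation.map_add_eq_of_lt_left, v2η]
      rw [v2η]; exact vdη
    rw [map_mul] at k2
    have m1 : (l - σ η) * (σ u - u) = (σ η + η + a1) * u := by linear_combination k2
    have m2 : (l + σ η + a1) * (σ u - u) = (σ η + η + a1) * σ u + (σ η - η) * (σ u - u) := by
      linear_combination k2
    have vsub : v (σ u - u) ≤ v u := v.map_sub_le vu.le le_rfl
    have n1 : 1 ≤ v (l - σ η) :=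
      v_ge_one_of_mul hu0' (by rw [m1, map_mul, vD, one_mul]) vsub
    have n2 : 1 ≤ v (l + σ η + a1) := by
      refine v_ge_one_of_mul hu0' ?_ vsub
      have e5 : v ((σ η + η + a1) * σ u) = v u := by rw [map_mul, vD, one_mul, vu]
      rw [m2, Valuation.map_add_eq_of_lt_left, e5]
      rw [e5, map_mul]
      calc v (σ η - η) * v (σ u - u) ≤ v (σ η - η) * v u := by gcongr
        _ < 1 * v u := by gcongr
        _ = v u := one_mul _
    have key : xR - X0 = (l - σ η) * (l + σ η + a1) - (u - b4 / σ u) := by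
      rw [k1]; linear_combination eη'
    have n3 : 1 ≤ v ((l - σ η) * (l + σ η + a1)) := by rw [map_mul]; exact one_le_mul n1 n2
    rw [key, Valuation.map_sub_eq_of_lt_left]
    · exact n3
    · exact lt_of_lt_of_le (v_sub_lt_one v hx hr') n3
  · -- case 2
    have hb40' : 0 < v b4 := zero_lt_iff.mpr ((map_ne_zero v).mpr hNa40)
    obtain ⟨s, rfl⟩ : ∃ s, u = b4 * s := ⟨u / b4, by field_simp⟩
    obtain ⟨t, rfl⟩ : ∃ t, w = b4 * t := ⟨w / b4, by field_simp⟩
    have vs : v s ≤ 1 := by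
      rw [map_mul] at hc
      by_contra hcon
      rw [not_le] at hcon
      have : v b4 * 1 < v b4 * v s := by gcongr
      rw [mul_one] at this
      exact absurd hc (not_le.mpr this)
    have et : t ^ 2 + a1 * s * t = b4 * s ^ 3 + b2 * s ^ 2 + s := by
      apply mul_left_cancel₀ (pow_ne_zero 2 hNa40)
      linear_combination e
    have vt : v t ≤ 1 := v_root_le_one v (v_mul_le_one v hw1 vs)
      (v_add_le_one v (v_add_le_one v (v_mul_le_one v hNa4.le (v_pow_le_one v vs 3))
        (v_mul_le_one v vb2 (v_pow_le_one v vs 2))) vs) et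
    have vds : v (σ s - s) < 1 := inertia_sub_lt_one hσ ((A.valuation_le_one_iff _).mp vs)
    have vdt : v (σ t - t) < 1 := inertia_sub_lt_one hσ ((A.valuation_le_one_iff _).mp vt)
    have vs' : v (σ s) ≤ 1 := by
      have : σ s = (σ s - s) + s := by ring
      rw [this]; exact v_add_le_one v vds.le vs
    have vt' : v (σ t) ≤ 1 := by
      have : σ t = (σ t - t) + t := by ring
      rw [this]; exact v_add_le_one v vdt.le vt
    rw [map_mul, map_mul, hσb4] at k2 k3
    rw [map_mul, hσb4] at k1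
    have hl : 1 < v l := by
      refine node_aux v hw1 vb2 hNa4 vs vt vs' vds vdt et ?_ ?_
      · apply mul_left_cancel₀ hNa40; linear_combination k2
      · apply mul_left_cancel₀ hNa40; linear_combination k3
    have key : xR - X0 = l ^ 2 + a1 * l - (b2 + b4 * σ s + b4 * s) := by rw [k1]; ring
    rw [key]
    refine (v_quad_gt_one v hl hw1 ?_).le
    exact v_add_le_one v (v_add_le_one v vb2 (v_mul_le_one v hNa4.le vs'))
      (v_mul_le_one v hNa4.le vs)

end main

end Fermat.Agent.S13lib
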