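import Fermat.Agent.S13lib.FreyGlobal
import Fermat.Agent.DivPoly.Rank
import Fermat.Prelude.Def_FLTPrelim_CofixedLine

set_option autoImplicit false

/-! # The kernel of reduction and stable lines -/

namespace Fermat.Agent.S13lib

open WeierstrassCurve WeierstrassCurve.Affine WeierstrassCurve.Affine.Point
open Fermat.Agent.EC Fermat.Agent.DivPoly

local notation "Qbar" => AlgebraicClosure ℚ

variable (P : FreyPackage)

theorem frey_Δ_ne_zero : (P.freyCurve⁄Qbar).Δ ≠ 0 := by
  rw [frey_Δ]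
  exact_mod_cast Wiring.freyCurveInt_Δ_ne_zero P

theorem frey_preΨ_coeff (A : ValuationSubring Qbar) (i : ℕ) :
    A.valuation (((P.freyCurve⁄Qbar).preΨ P.p).coeff i) ≤ 1 := by
  have h1 : (P.freyCurve⁄Qbar) = P.freyCurveInt.map (algebraMap ℤ Qbar) := by
    rw [← Wiring.freyCurveInt_map]
    change (P.freyCurveInt.map (Int.castRingHom ℚ)).map (algebraMap ℚ Qbar) = _
    rw [WeierstrassCurve.map_map]
    congr 1
  rw [h1, map_preΨ, Polynomial.coeff_map]
  exact v_intCast_le_one _ _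

theorem frey_mem_of_E1 {A : ValuationSubring Qbar} (hA : A.LiesOverPrime P.p)
    (N : Submodule (ZMod P.p) (Submodule.torsionBy ℤ (P.freyCurve⁄Qbar).Point P.p))
    (hst : IsGaloisStable ℚ N) (hN : N ≠ ⊥) (hE : ∀ x ∈ N, E1 A.valuation x.1)
    (y : Submodule.torsionBy ℤ (P.freyCurve⁄Qbar).Point P.p) (hy : E1 A.valuation y.1) :
    y ∈ N := by
  classical
  by_contra hyN
  have hgal : IsGalois ℚ Qbar := inferInstance
  have hfin : Finite (Submodule.torsionBy ℤ (P.freyCurve⁄Qbar).Point (P.p : ℤ)) :=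
    finite_torsionBy_baseChange _ (frey_Δ_ne_zero P) P.p P.hp0
  set v := A.valuation with hv
  -- the set of x-coordinates
  have hSfin : {r : Qbar | ∃ x ∈ N, x ≠ 0 ∧ xc x.1 = r}.Finite := by
    have : {r : Qbar | ∃ x ∈ N, x ≠ 0 ∧ xc x.1 = r} ⊆
      Set.range (fun x : Submodule.torsionBy ℤ (P.freyCurve⁄Qbar).Point (P.p : ℤ) => xc x.1) := by
      rintro r ⟨x, -, -, rfl⟩
      exact ⟨x, rfl⟩
    exact (Set.finite_range _).subset this
  set S := hSfin.toFinset with hS
  have hmemS : ∀ r, r ∈ S ↔ ∃ x ∈ N, x ≠ 0 ∧ xc x.1 = r := by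
    intro r; rw [hS, Set.Finite.mem_toFinset, Set.mem_ofPred_eq]
  have hSv : ∀ r ∈ S, 1 < v r := by
    intro r hr
    obtain ⟨x, hx, hx0, rfl⟩ := (hmemS r).mp hr
    exact (E1_iff_xc (fun h => hx0 (Subtype.ext h))).mp (hE x hx)
  set t := ∏ r ∈ S, r with ht
  have htfix : ∀ σ : Qbar ≃ₐ[ℚ] Qbar, σ t = t := by
    intro σ
    rw [ht, map_prod]
    have himg : S.image σ = S := by
      apply Finset.eq_of_subset_of_card_le
      · intro r hr
        rw [Finset.mem_image] at hr
        obtain ⟨s, hs, rfl⟩ := hr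
        obtain ⟨x, hx, hx0, rfl⟩ := (hmemS s).mp hs
        rw [hmemS]
        refine ⟨σ • x, hst σ x hx, ?_, ?_⟩
        · intro h
          apply hx0
          have := congrArg (fun z => σ⁻¹ • z) h
          simpa using this
        · rw [← xc_smul]; rfl
      · rw [Finset.card_image_of_injective _ σ.injective]
    conv_rhs => rw [← himg]
    rw [Finset.prod_image (fun a _ b _ h => σ.injective h)]
  obtain ⟨q, hq⟩ := exists_rat_of_fixed htfix
  obtain ⟨x0, hx0, hx0'⟩ : ∃ x ∈ N, x ≠ 0 := by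
    by_contra hcon
    push Not at hcon
    exact hN (Submodule.eq_bot_iff _ |>.mpr hcon)
  have htv : 1 < v t := by
    have hmem : xc x0.1 ∈ S := (hmemS _).mpr ⟨x0, hx0, hx0', rfl⟩
    rw [ht, ← Finset.mul_prod_erase S (fun r => r) hmem, map_mul, map_prod]
    have h1 : 1 ≤ ∏ r ∈ S.erase (xc x0.1), v r :=
      Finset.one_le_prod' fun r hr => (hSv r (Finset.mem_of_mem_erase hr)).le
    exact lt_of_lt_of_le (hSv _ hmem) (le_mul_of_one_le_right' h1)
  have hpt : 1 ≤ v ((P.p : Qbar) * t) := by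
    rw [← hq] at htv ⊢
    exact one_le_of_one_lt P.pp hA htv
  -- the new root
  have hy0 : y ≠ 0 := by rintro rfl; exact hyN N.zero_mem
  have hy0' : y.1 ≠ 0 := fun h => hy0 (Subtype.ext h)
  have hyS : xc y.1 ∉ S := by
    intro h
    obtain ⟨x, hx, hx0, hxy⟩ := (hmemS _).mp h
    have hx0' : x.1 ≠ 0 := fun h => hx0 (Subtype.ext h)
    rcases eq_or_eq_neg hx0' hy0' hxy with h1 | h1
    · apply hyN
      have : y = x := Subtype.ext h1.symm
      rw [this]; exact hx
    · apply hyN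
      have : y = -x := Subtype.ext (by rw [Submodule.coe_neg, h1, neg_neg])
      rw [this]; exact N.neg_mem hx
  have hyv : 1 < v (xc y.1) := (E1_iff_xc hy0').mp hy
  have hroot : ∀ x : Submodule.torsionBy ℤ (P.freyCurve⁄Qbar).Point (P.p : ℤ), x ≠ 0 →
      ((P.freyCurve⁄Qbar).preΨ P.p).IsRoot (xc x.1) := by
    intro x hx
    have hx' : x.1 ≠ 0 := fun h => hx (Subtype.ext h)
    rw [Polynomial.IsRoot, eval_preΨ_eq_zero_iff (frey_Δ_ne_zero P) hx' P.p P.hp_odd]
    have := (Submodule.mem_torsionBy_iff _ _).mp x.2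
    rwa [natCast_zsmul] at this
  have hpne : ((P.p : ℤ) : Qbar) ≠ 0 := by exact_mod_cast P.hp0
  have hlead : ((P.freyCurve⁄Qbar).preΨ P.p).leadingCoeff = (P.p : Qbar) := by
    have hodd : ¬ Even (P.p : ℤ) := by
      rw [Int.even_coe_nat]; exact Nat.not_even_iff_odd.mpr P.hp_odd
    rw [leadingCoeff_preΨ _ hpne, if_neg hodd]
    simp
  have hf0 : (P.freyCurve⁄Qbar).preΨ P.p ≠ 0 := by
    intro h0
    rw [h0, Polynomial.leadingCoeff_zero] at hlead
    exact hpne (by exact_mod_cast hlead.symm)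
  have hg := gauss_leading v hf0 (frey_preΨ_coeff P A) (insert (xc y.1) S)
    (by
      intro r hr
      rcases Finset.mem_insert.mp hr with rfl | h
      · exact hyv
      · exact hSv r h)
    (by
      intro r hr
      rcases Finset.mem_insert.mp hr with rfl | h
      · exact hroot y hy0
      · obtain ⟨x, -, hx0, rfl⟩ := (hmemS r).mp h
        exact hroot x hx0)
  rw [Finset.prod_insert hyS, hlead, ← ht, mul_assoc, map_mul, mul_comm t] at hg
  exact absurd hg (not_le.mpr (lt_of_lt_of_le hyv (le_mul_of_one_le_right' hpt)))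

end Fermat.Agent.S13lib
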