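import Fermat.Agent.EC.KernelOfReduction
import Mathlib

set_option autoImplicit false

/-! # A Gauss lemma for non-integral roots -/

namespace Fermat.Agent.S13lib

open Polynomial Fermat.Agent.EC

variable {F : Type*} [Field F] {Γ₀ : Type*} [LinearOrderedCommGroupWithZero Γ₀]
  (v : Valuation F Γ₀)

theorem gauss_step {g : F[X]} {r : F} (hr : 1 < v r)
    (hf : ∀ i, v (((X - C r) * g).coeff i) ≤ 1) (i : ℕ) : v (r * g.coeff i) ≤ 1 := by
  induction i with
  | zero =>
    have := hf 0
    rw [sub_mul, coeff_sub, coeff_X_mul_zero, coeff_C_mul, zero_sub, Valuation.map_neg] at this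
    exact this
  | succ i ih =>
    have h1 := hf (i + 1)
    rw [sub_mul, coeff_sub, coeff_X_mul, coeff_C_mul] at h1
    have h2 : v (g.coeff i) ≤ 1 := by
      rw [map_mul] at ih
      by_contra hcon
      rw [not_le] at hcon
      exact absurd ih (not_le.mpr (one_lt_mul'' hr hcon))
    have : r * g.coeff (i + 1) = g.coeff i - (g.coeff i - r * g.coeff (i + 1)) := by ring
    rw [this]
    exact v.map_sub_le h2 h1

theorem gauss_prod (S : Finset F) (hS : ∀ r ∈ S, 1 < v r) : ∀ h : F[X],
    (∀ i, v (((∏ r ∈ S, (X - C r)) * h).coeff i) ≤ 1) →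
    ∀ i, v ((∏ r ∈ S, r) * h.coeff i) ≤ 1 := by
  classical
  induction S using Finset.induction_on with
  | empty => intro h hh i; simpa using hh i
  | insert a S ha ih =>
    intro h hh i
    have h1 := gauss_step v (g := (∏ r ∈ S, (X - C r)) * h) (hS a (Finset.mem_insert_self _ _))
      (by
        intro i
        have := hh i
        rwa [Finset.prod_insert ha, mul_assoc] at this)
    have h2 := ih (fun r hr => hS r (Finset.mem_insert_of_mem hr)) (C a * h)
      (by
        intro i
        have := h1 i
        rw [← coeff_C_mul] at this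
        convert this using 3
        ring) i
    rw [coeff_C_mul] at h2
    rw [Finset.prod_insert ha]
    convert h2 using 2
    ring

theorem gauss_leading {f : F[X]} (hf0 : f ≠ 0) (hf : ∀ i, v (f.coeff i) ≤ 1) (S : Finset F)
    (hS : ∀ r ∈ S, 1 < v r) (hroot : ∀ r ∈ S, f.IsRoot r) :
    v ((∏ r ∈ S, r) * f.leadingCoeff) ≤ 1 := by
  classical
  have hdvd : (∏ r ∈ S, (X - C r)) ∣ f := by
    refine Finset.prod_dvd_of_coprime ?_ (fun r hr => dvd_iff_isRoot.mpr (hroot r hr))
    intro a _ b _ hab
    exact pairwise_coprime_X_sub_C (s := id) Function.injective_id hab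
  obtain ⟨h, rfl⟩ := hdvd
  have h1 := gauss_prod v S hS h hf h.natDegree
  rw [leadingCoeff_mul, (monic_prod_of_monic _ _ fun r _ => monic_X_sub_C r).leadingCoeff, one_mul]
  exact h1

end Fermat.Agent.S13lib
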