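import Fermat.Agent.S13lib.FreyLocal
import Fermat.Agent.S13lib.Gauss
import Fermat.Agent.Frob.Places

set_option autoImplicit false

/-! # Global facts about the Frey curve -/

namespace Fermat.Agent.S13lib

open WeierstrassCurve WeierstrassCurve.Affine WeierstrassCurve.Affine.Point
open Fermat.Agent.EC Fermat.Agent.DivPoly

local notation "Qbar" => AlgebraicClosure ℚ

variable (P : FreyPackage)

/-- The Frey curve has no nonzero rational point of order `p`. -/
theorem frey_no_fixed_point (x : (P.freyCurve⁄Qbar).Point) (hx : x ≠ 0) (hpx : P.p • x = 0)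
    (hfix : ∀ σ : Qbar ≃ₐ[ℚ] Qbar, σ • x = x) : False := by
  obtain ⟨A, hA⟩ := Frob.exists_liesOverPrime Qbar Nat.prime_two
  set v := A.valuation with hv
  have hgal : IsGalois ℚ Qbar := inferInstance
  have hW := frey_integral P A
  have hp5 := P.hp5
  have hprime : Prime (P.p : ℤ) := Nat.prime_iff_prime_int.mp P.pp
  have hnode := frey_node_ab P Nat.prime_two hA
    (by exact_mod_cast (Wiring.two_dvd_b P).mul_left P.a)
  rw [_root_.map_zero] at hnode
  have ha4 : v (P.freyCurve⁄Qbar).a₄ < 1 := by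
    have := hnode.a4
    simpa using this
  have hb2 : v (P.freyCurve⁄Qbar).b₂ = 1 := by
    have := hnode.disc
    rw [mul_zero, add_zero] at this
    exact this
  have hvp : v (P.p : Qbar) = 1 := by
    have := v_intCast_eq_one' (L := Qbar) Nat.prime_two hA (n := (P.p : ℤ)) (by
      intro h
      have h1 : 2 ∣ P.p := by exact_mod_cast h
      have := (Nat.prime_dvd_prime_iff_eq Nat.prime_two P.pp).1 h1
      omega)
    simpa using this
  have hπ1 : v (2 : Qbar) < 1 := by
    have := v_prime_lt_one (L := Qbar) (ℓ := 2) hA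
    simpa using this
  have hπ0 : 0 < v (2 : Qbar) := by
    rw [zero_lt_iff, map_ne_zero]; norm_num
  have hv4 : v (4 : Qbar) < 1 := by
    rw [show (4 : Qbar) = 2 ^ 2 by norm_num, map_pow]
    exact pow_lt_one₀ zero_le hπ1 two_ne_zero
  have hrat : ∀ n : ℤ, ∃ q : ℚ, (q : Qbar) = xc (n • x) := by
    intro n
    apply exists_rat_of_fixed
    intro σ
    rw [← xc_smul, algEquiv_smul_zsmul, hfix]
  obtain ⟨μ, hμ, j, hj, hlow, hup⟩ := exists_mu hW (frey_b₄ P) (frey_b₆ P) (frey_b₈ P) ha4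
    (frey_a₄_ne_zero P) hb2 P.pp hp5 hvp hv4 hx hpx (by
      intro n _ h1
      obtain ⟨q, hq⟩ := hrat n
      rw [← hq] at h1 ⊢
      exact v_sub_one_lt_one hA h1)
  have hV0 : 0 < v (P.freyCurve⁄Qbar).a₄ :=
    zero_lt_iff.mpr ((map_ne_zero v).mpr (frey_a₄_ne_zero P))
  -- the valuation of `x`
  obtain ⟨q, hq⟩ := hrat 1
  rw [one_smul] at hq
  have hq0 : q ≠ 0 := by
    rintro rfl
    rw [← hq, Rat.cast_zero, _root_.map_zero] at hlow
    exact absurd zero_le (not_le.mpr hlow)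
  obtain ⟨k, hk⟩ := exists_v_rat (L := Qbar) Nat.prime_two hA hq0
  rw [hq] at hk
  obtain ⟨s, -, -, -, hs⟩ := exists_v_int (L := Qbar) Nat.prime_two hA P.hb0
  have hva : v (P.a : Qbar) = 1 := by
    apply v_intCast_eq_one' Nat.prime_two hA
    have := Wiring.a_mod4 P
    push_cast
    omega
  have h16 : v (2 : Qbar) ^ 4 * v (P.freyCurve⁄Qbar).a₄ = v (2 : Qbar) ^ (s * P.p) := by
    have := congrArg v (frey_a₄_eq P)
    rw [map_mul, map_mul, Valuation.map_neg, map_pow, map_pow, hva, one_pow, one_mul, hs,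
      ← pow_mul] at this
    rw [← map_pow]
    norm_num at this ⊢
    exact this
  have hk' : v (xc x) = v (2 : Qbar) ^ k := by simpa using hk
  have hpow : v (2 : Qbar) ^ (k * P.p + 8 * j) = v (2 : Qbar) ^ ((2 * j * s * P.p : ℕ) : ℤ) := by
    have e1 : v (xc x) ^ P.p = v (P.freyCurve⁄Qbar).a₄ ^ (2 * j) := by
      rw [hj, pow_right_comm, hμ, ← pow_mul]
    have e2 : v (2 : Qbar) ^ (k * P.p) = v (P.freyCurve⁄Qbar).a₄ ^ (2 * j) := by
      rw [← e1, hk', zpow_mul, zpow_natCast]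
    rw [zpow_add₀ hπ0.ne', e2]
    have e3 : v (2 : Qbar) ^ (8 * (j : ℤ)) = (v (2 : Qbar) ^ 4) ^ (2 * j) := by
      rw [← pow_mul]
      have : (8 * (j : ℤ)) = ((4 * (2 * j) : ℕ) : ℤ) := by push_cast; ring
      rw [this, zpow_natCast]
    rw [e3, ← mul_pow, mul_comm, h16, ← pow_mul, zpow_natCast]
    congr 1
    ring
  have hexp : k * P.p + 8 * j = ((2 * j * s * P.p : ℕ) : ℤ) :=
    zpow_right_injective₀ hπ0 hπ1.ne hpow
  have hpj : (P.p : ℤ) ∣ 8 * j := by
    refine ⟨2 * j * s - k, ?_⟩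
    push_cast at hexp
    linear_combination hexp
  have hpj' : P.p ∣ j := by
    rcases hprime.dvd_or_dvd hpj with h | h
    · exfalso
      have h1 : P.p ∣ 2 ^ 3 := by exact_mod_cast h
      have h2 := P.pp.dvd_of_dvd_pow h1
      have := Nat.le_of_dvd (by norm_num) h2
      omega
    · exact_mod_cast h
  obtain ⟨i, rfl⟩ := hpj'
  rw [pow_mul, hμ] at hj
  rcases Nat.eq_zero_or_pos i with rfl | hi
  · rw [pow_zero] at hj
    exact hup.ne hj
  · have : v (xc x) ≤ v (P.freyCurve⁄Qbar).a₄ := by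
      rw [hj, ← pow_mul]
      calc v (P.freyCurve⁄Qbar).a₄ ^ (2 * i) ≤ v (P.freyCurve⁄Qbar).a₄ ^ 1 :=
            pow_le_pow_right_of_le_one' ha4.le (by omega)
        _ = _ := pow_one _
    exact absurd hlow (not_lt.mpr this)

end Fermat.Agent.S13lib
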