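import Fermat.Agent.EC.Unramified
import Fermat.Agent.DivPoly.XCoord

set_option autoImplicit false

/-! # Slopes and inertia on points with nonsingular reduction -/

namespace Fermat.Agent.S13lib

open WeierstrassCurve WeierstrassCurve.Affine WeierstrassCurve.Affine.Point
open Fermat.Agent.EC Fermat.Agent.DivPoly

section

variable {F : Type*} [Field F] {Γ₀ : Type*} [LinearOrderedCommGroupWithZero Γ₀]

theorem E1_iff_xc {v : Valuation F Γ₀} {W : WeierstrassCurve.Affine F} {P : W.Point}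
    (hP : P ≠ 0) : E1 v P ↔ 1 < v (xc P) := by
  obtain ⟨h, hP'⟩ := exists_some hP
  conv_lhs => rw [hP']
  exact E1_some v h

end

section slope

variable {F : Type*} [Field F] [DecidableEq F] {W : WeierstrassCurve.Affine F}

theorem exists_slope_sub {P Q : W.Point} (hP : P ≠ 0) (hQ : Q ≠ 0) (h : P ≠ Q) :
    ∃ L : F, xc (P - Q) = L ^ 2 + W.a₁ * L - W.a₂ - xc P - xc Q ∧
      L * (xc P - xc Q) = yc P + yc Q + W.a₁ * xc Q + W.a₃ ∧
      L * (yc P - yc Q) = xc P ^ 2 + xc P * xc Q + xc Q ^ 2 + W.a₂ * (xc P + xc Q) + W.a₄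
        - W.a₁ * yc P := by
  have eP := DivPoly.equation hP
  have eQ := DivPoly.equation hQ
  obtain ⟨hP', hPe⟩ := exists_some hP
  obtain ⟨hQ', hQe⟩ := exists_some hQ
  have hne : ¬ (xc P = xc Q ∧ yc P = W.negY (xc Q) (W.negY (xc Q) (yc Q))) := by
    rintro ⟨h1, h2⟩
    apply h
    rw [hPe, hQe]
    simp only [negY_negY] at h2
    simp only [Point.some.injEq]
    exact ⟨h1, h2⟩
  have key : P - Q = .some _ _
      (nonsingular_add hP' ((nonsingular_neg ..).mpr hQ') hne) := by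
    conv_lhs => rw [hPe, hQe]
    rw [sub_eq_add_neg, neg_some, add_some hne]
  have hx : xc (P - Q) = W.addX (xc P) (xc Q)
      (W.slope (xc P) (xc Q) (yc P) (W.negY (xc Q) (yc Q))) := by rw [key]; rfl
  refine ⟨W.slope (xc P) (xc Q) (yc P) (W.negY (xc Q) (yc Q)), by rw [hx, addX], ?_⟩
  by_cases hx' : xc P = xc Q
  · have hy : yc P ≠ W.negY (xc Q) (W.negY (xc Q) (yc Q)) := fun h' => hne ⟨hx', h'⟩
    have hy2 : yc P = W.negY (xc Q) (yc Q) := by
      rcases Y_eq_of_X_eq hP'.1 hQ'.1 hx' with h' | h'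
      · exact absurd (by rw [negY_negY]; exact h') hy
      · exact h'
    rw [slope_of_Y_ne hx' hy]
    have hd : yc P - W.negY (xc P) (yc P) ≠ 0 := by
      rw [hx']
      intro h0
      apply hy
      rw [← hy2]
      exact sub_eq_zero.mp h0
    have hd2 : yc P - yc Q = yc P - W.negY (xc P) (yc P) := by
      rw [hx', hy2, negY_negY]
    constructor
    · rw [hx', sub_self, mul_zero, hy2, negY]; ring
    · rw [hd2, div_mul_cancel₀ _ hd, hx']; ring
  · rw [slope_of_X_ne hx']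
    have hd := sub_ne_zero.mpr hx'
    have h1 : (yc P - W.negY (xc Q) (yc Q)) / (xc P - xc Q) * (xc P - xc Q)
        = yc P + yc Q + W.a₁ * xc Q + W.a₃ := by
      rw [div_mul_cancel₀ _ hd, negY]; ring
    refine ⟨h1, ?_⟩
    apply mul_right_cancel₀ hd
    have : (yc P - W.negY (xc Q) (yc Q)) / (xc P - xc Q) * (yc P - yc Q) * (xc P - xc Q)
        = (yc P + yc Q + W.a₁ * xc Q + W.a₃) * (yc P - yc Q) := by rw [← h1]; ring
    rw [this]
    linear_combination eP - eQ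

end slope

section val

variable {F : Type*} [Field F] {Γ₀ : Type*} [LinearOrderedCommGroupWithZero Γ₀]
  (v : Valuation F Γ₀)

theorem v_quad_gt_one {L a c : F} (hL : 1 < v L) (ha : v a ≤ 1) (hc : v c ≤ 1) :
    1 < v (L ^ 2 + a * L - c) := by
  have hL0 : 0 < v L := zero_lt_one.trans hL
  have h1 : v (a * L) < v (L ^ 2) := by
    rw [map_mul, map_pow, sq]
    calc v a * v L ≤ 1 * v L := by gcongr
      _ < v L * v L := by gcongr
  have h2 : 1 < v (L ^ 2) := by rw [map_pow]; exact one_lt_pow₀ hL two_ne_zero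
  have h3 : v (L ^ 2 + a * L) = v (L ^ 2) := Valuation.map_add_eq_of_lt_left _ h1
  rw [Valuation.map_sub_eq_of_lt_left, h3]
  · exact h2
  · rw [h3]; exact lt_of_le_of_lt hc h2

theorem v_root_le_one {y b c : F} (hb : v b ≤ 1) (hc : v c ≤ 1) (h : y ^ 2 + b * y = c) :
    v y ≤ 1 := by
  by_contra hy
  rw [not_le] at hy
  have := v_quad_gt_one v hy hb (c := 0) (by simp)
  rw [sub_zero, h] at this
  exact absurd hc (not_le.mpr this)

variable {W : WeierstrassCurve.Affine F}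

theorem yc_le_one (hW : IntegralFor v W) {P : W.Point} (hP : P ≠ 0) (hx : v (xc P) ≤ 1) :
    v (yc P) ≤ 1 := by
  have h := DivPoly.equation hP
  refine v_root_le_one v (b := W.a₁ * xc P + W.a₃)
    (c := xc P ^ 3 + W.a₂ * xc P ^ 2 + W.a₄ * xc P + W.a₆) ?_ ?_ (by rw [← h]; ring)
  · exact v_add_le_one v (v_mul_le_one v hW.a₁ hx) hW.a₃
  · refine v_add_le_one v (v_add_le_one v (v_add_le_one v ?_ ?_) ?_) hW.a₆
    · exact v_pow_le_one v hx 3
    · exact v_mul_le_one v hW.a₂ (v_pow_le_one v hx 2)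
    · exact v_mul_le_one v hW.a₄ hx

/-- the point has nonsingular reduction. -/
def NS (P : W.Point) : Prop :=
  P = 0 ∨ 1 < v (xc P) ∨ 1 ≤ v (2 * yc P + W.a₁ * xc P + W.a₃) ∨
    1 ≤ v (3 * xc P ^ 2 + 2 * W.a₂ * xc P + W.a₄ - W.a₁ * yc P)

end val

section galois

variable {k L : Type*} [Field k] [Field L] [Algebra k L] [DecidableEq L]
  {A : ValuationSubring L} {W : WeierstrassCurve.Affine k}

theorem smul_ne_zero' {σ : L ≃ₐ[k] L} {P : (W⁄L).Point} (hP : P ≠ 0) : σ • P ≠ 0 := by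
  intro h
  apply hP
  have := congrArg (fun Q => σ⁻¹ • Q) h
  simpa using this

theorem xc_smul (σ : L ≃ₐ[k] L) (P : (W⁄L).Point) : xc (σ • P) = σ (xc P) := by
  rcases P with _ | ⟨x, y, h⟩
  · change (0 : L) = σ 0
    rw [_root_.map_zero]
  · rfl

theorem yc_smul (σ : L ≃ₐ[k] L) (P : (W⁄L).Point) : yc (σ • P) = σ (yc P) := by
  rcases P with _ | ⟨x, y, h⟩
  · change (0 : L) = σ 0
    rw [_root_.map_zero]
  · rfl

theorem E1_smul_sub_of_NS (hW : IntegralFor A.valuation (W⁄L)) {P : (W⁄L).Point}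
    (hP : NS A.valuation P) {σ : L ≃ₐ[k] L} (hσ : σ ∈ A.inertiaSubgroupIn k) :
    E1 A.valuation (σ • P - P) := by
  set v := A.valuation with hv
  rcases eq_or_ne P 0 with rfl | hP0
  · rw [smul_zero, sub_zero]; exact E1_zero _
  rcases lt_or_ge 1 (v (xc P)) with hx | hx
  · have h1 : E1 v P := (E1_iff_xc hP0).mpr hx
    exact (E1_smul h1 (decomp_of_inertia hσ)).sub hW h1
  have hP' := (hP.resolve_left hP0).resolve_left (not_lt.mpr hx)
  rcases eq_or_ne (σ • P) P with he | hne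
  · rw [he, sub_self]; exact E1_zero _
  have hy := yc_le_one v hW hP0 hx
  have hdx : v (σ (xc P) - xc P) < 1 := inertia_sub_lt_one hσ ((A.valuation_le_one_iff _).mp hx)
  have hdy : v (σ (yc P) - yc P) < 1 := inertia_sub_lt_one hσ ((A.valuation_le_one_iff _).mp hy)
  obtain ⟨l, h1, h2, h3⟩ := exists_slope_sub (smul_ne_zero' hP0 (σ := σ)) hP0 hne
  rw [xc_smul, yc_smul] at h2 h3
  have hx' : v (σ (xc P)) ≤ 1 := by
    have : σ (xc P) = (σ (xc P) - xc P) + xc P := by ring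
    rw [this]; exact v_add_le_one v hdx.le hx
  have hl : 1 < v l := by
    by_contra hl
    rw [not_lt] at hl
    rcases hP' with h | h
    · have e1 : v (l * (σ (xc P) - xc P)) < 1 := v_mul_lt_one v hl hdx
      rw [h2] at e1
      have e2 : 2 * yc P + (W⁄L).a₁ * xc P + (W⁄L).a₃ =
        (σ (yc P) + yc P + (W⁄L).a₁ * xc P + (W⁄L).a₃) - (σ (yc P) - yc P) := by ring
      rw [e2] at h
      exact absurd (v_sub_lt_one v e1 hdy) (not_lt.mpr h)
    · have e1 : v (l * (σ (yc P) - yc P)) < 1 := v_mul_lt_one v hl hdy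
      rw [h3] at e1
      have e2 : 3 * xc P ^ 2 + 2 * (W⁄L).a₂ * xc P + (W⁄L).a₄ - (W⁄L).a₁ * yc P =
        (σ (xc P) ^ 2 + σ (xc P) * xc P + xc P ^ 2 + (W⁄L).a₂ * (σ (xc P) + xc P) + (W⁄L).a₄
        - (W⁄L).a₁ * σ (yc P)) - (σ (xc P) + 2 * xc P + (W⁄L).a₂) * (σ (xc P) - xc P)
        + (W⁄L).a₁ * (σ (yc P) - yc P) := by ring
      rw [e2] at h
      refine absurd (v_add_lt_one v (v_sub_lt_one v e1 (v_mul_lt_one v ?_ hdx))
        (v_mul_lt_one v hW.a₁ hdy)) (not_lt.mpr h)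
      exact v_add_le_one v (v_add_le_one v hx' (v_mul_le_one v (v_ofNat_le_one v _) hx)) hW.a₂
  have hne' : σ • P - P ≠ 0 := sub_ne_zero.mpr hne
  rw [E1_iff_xc hne', h1]
  have : l ^ 2 + (W⁄L).a₁ * l - (W⁄L).a₂ - xc (σ • P) - xc P
    = l ^ 2 + (W⁄L).a₁ * l - ((W⁄L).a₂ + σ (xc P) + xc P) := by rw [xc_smul]; ring
  rw [this]
  exact v_quad_gt_one v hl hW.a₁ (v_add_le_one v (v_add_le_one v hW.a₂ hx') hx)

end galois

end Fermat.Agent.S13lib
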