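import Fermat.Agent.EC.KernelOfReduction
import Fermat.Agent.EC.Annulus
import Fermat.Agent.DivPoly.XCoord
import Fermat.Agent.S13lib.Slope

set_option autoImplicit false

/-! # Points of prime order on a curve with nodal reduction at a place over 2 -/

namespace Fermat.Agent.S13lib

open WeierstrassCurve WeierstrassCurve.Affine WeierstrassCurve.Affine.Point
open Fermat.Agent.EC Fermat.Agent.DivPoly

variable {F : Type*} [Field F] [DecidableEq F] {Γ₀ : Type*} [LinearOrderedCommGroupWithZero Γ₀]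

/-- A nonzero multiple of a point of prime order is nonzero. -/
theorem zsmul_ne_zero_of_not_dvd {G : Type*} [AddCommGroup G] {p : ℕ} (hp : p.Prime) {P : G}
    (hP : P ≠ 0) (hpP : p • P = 0) {n : ℤ} (hn : ¬ (p : ℤ) ∣ n) : n • P ≠ 0 := by
  intro h0
  have hprime : Prime (p : ℤ) := Nat.prime_iff_prime_int.mp hp
  obtain ⟨a, b, hab⟩ := (hprime.coprime_iff_not_dvd.mpr hn)
  apply hP
  calc P = (1 : ℤ) • P := (one_zsmul P).symm
    _ = (a * (p : ℤ) + b * n) • P := by rw [hab]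
    _ = 0 := by rw [add_zsmul, mul_zsmul, mul_zsmul, h0, natCast_zsmul, hpP, zsmul_zero,
                  zsmul_zero, add_zero]

theorem exists_mu {v : Valuation F Γ₀} {W : WeierstrassCurve.Affine F}
    (hW : IntegralFor v W) (hb4 : W.b₄ = 2 * W.a₄) (hb6 : W.b₆ = 0) (hb8 : W.b₈ = - W.a₄ ^ 2)
    (ha4 : v W.a₄ < 1) (ha40 : W.a₄ ≠ 0) (hb2 : v W.b₂ = 1) {p : ℕ} (hp : p.Prime) (hp5 : 5 ≤ p)
    (hvp : v (p : F) = 1) (hv4 : v 4 < 1)
    {P : W.Point} (hP : P ≠ 0) (hpP : p • P = 0)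
    (hrat : ∀ n : ℤ, n • P ≠ 0 → v (xc (n • P)) = 1 → v (xc (n • P) - 1) < 1) :
    ∃ μ : Γ₀, μ ^ p = v W.a₄ ^ 2 ∧ ∃ j : ℕ, v (xc P) = μ ^ j ∧ v W.a₄ < v (xc P) ∧
      v (xc P) < 1 := by
  have hprime : Prime (p : ℤ) := Nat.prime_iff_prime_int.mp hp
  have hnd : ∀ m : ℤ, 1 ≤ m → m ≤ 4 → ¬ (p : ℤ) ∣ m := by
    intro m h1 h2 hd
    have := Int.le_of_dvd (by omega) hd
    omega
  have hnp : ∀ n : ℤ, p • (n • P) = 0 := by
    intro n
    rw [← natCast_zsmul, ← mul_zsmul, mul_comm, mul_zsmul, natCast_zsmul, hpP, zsmul_zero]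
  have hne : ∀ n : ℤ, ¬ (p : ℤ) ∣ n → n • P ≠ 0 := fun n hn =>
    zsmul_ne_zero_of_not_dvd hp hP hpP hn
  -- no multiple in the kernel of reduction
  have hE1 : ∀ n : ℤ, ¬ (p : ℤ) ∣ n → v (xc (n • P)) ≤ 1 := by
    intro n hn
    by_contra hcon
    rw [not_le] at hcon
    have h1 : E1 v (n • P) := (E1_iff_xc (hne n hn)).mpr hcon
    exact hne n hn (h1.eq_zero_of_nsmul_eq_zero hW hvp (hnp n))
  have h2n : ∀ n : ℤ, ¬ (p : ℤ) ∣ n → ∀ m : ℤ, 1 ≤ m → m ≤ 4 → ¬ (p : ℤ) ∣ m * n := by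
    intro n hn m h1 h2 hd
    rcases hprime.dvd_or_dvd hd with h | h
    · exact hnd m h1 h2 h
    · exact hn h
  -- addition and doubling formulas
  have hadd : ∀ m n : ℤ, ¬ (p : ℤ) ∣ m → ¬ (p : ℤ) ∣ n → ¬ (p : ℤ) ∣ m + n → ¬ (p : ℤ) ∣ m - n →
      xc ((m + n) • P) * xc ((m - n) • P) * (xc (m • P) - xc (n • P)) ^ 2 =
        (xc (m • P) * xc (n • P) - W.a₄) ^ 2 := by
    intro m n hm hn hmn hmn'
    have hx : xc (m • P) ≠ xc (n • P) := by
      apply xc_ne (hne m hm) (hne n hn)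
      · intro h
        apply hne _ hmn'
        rw [sub_smul, h, sub_self]
      · intro h
        apply hne _ hmn
        rw [add_smul, h, neg_add_cancel]
    have := xc_add_mul_xc_sub (hne m hm) (hne n hn) hx
    rw [add_smul, sub_smul, this, hb4, hb6, hb8]
    ring
  have hdbl : ∀ n : ℤ, ¬ (p : ℤ) ∣ n →
      xc ((2 * n) • P) * (xc (n • P) * (4 * xc (n • P) ^ 2 + W.b₂ * xc (n • P) + 4 * W.a₄)) =
        (xc (n • P) ^ 2 - W.a₄) ^ 2 := by
    intro n hn
    have e : (2 * n) • P = n • P + n • P := by rw [two_mul, add_smul]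
    have h2 : n • P + n • P ≠ 0 := by rw [← e]; exact hne _ (h2n n hn 2 (by norm_num) (by norm_num))
    have h1 := xc_two (hne n hn) h2
    rw [psi2_sq (hne n hn), hb4, hb6, hb8] at h1
    rw [e]
    linear_combination h1
  -- claim 1
  have claim1 : ∀ n : ℤ, ¬ (p : ℤ) ∣ n → v (xc (n • P)) < 1 := by
    intro n hn
    refine lt_of_le_of_ne (hE1 n hn) fun h1 => ?_
    have hn2 := h2n n hn 2 (by norm_num) (by norm_num)
    have hn3 := h2n n hn 3 (by norm_num) (by norm_num)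
    have hd := congrArg v (hdbl n hn)
    have e1 : v (4 * xc (n • P) ^ 2 + W.b₂ * xc (n • P) + 4 * W.a₄) = 1 := by
      have : v (W.b₂ * xc (n • P)) = 1 := by rw [map_mul, hb2, h1, mul_one]
      have h3 : v (4 * xc (n • P) ^ 2 + W.b₂ * xc (n • P)) = 1 := by
        rw [Valuation.map_add_eq_of_lt_right, this]
        rw [this, map_mul, map_pow, h1, one_pow, mul_one]; exact hv4
      rw [Valuation.map_add_eq_of_lt_left, h3]
      rw [h3]; exact v_mul_lt_one _ hv4.le ha4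
    have e2 : v ((xc (n • P) ^ 2 - W.a₄) ^ 2) = 1 := by
      rw [map_pow, Valuation.map_sub_eq_of_lt_left, map_pow, h1, one_pow, one_pow]
      rw [map_pow, h1, one_pow]; exact ha4
    rw [map_mul, map_mul, e1, e2, h1, mul_one, mul_one] at hd
    have r1 := hrat n (hne n hn) h1
    have r2 := hrat (2 * n) (hne _ hn2) hd
    have hdiff : v (xc ((2 * n) • P) - xc (n • P)) < 1 := by
      have : xc ((2 * n) • P) - xc (n • P) = (xc ((2 * n) • P) - 1) - (xc (n • P) - 1) := by ring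
      rw [this]; exact v_sub_lt_one v r2 r1
    have e3 : 2 * n + n = 3 * n := by ring
    have e4 : 2 * n - n = n := by ring
    have ha := hadd (2 * n) n hn2 hn (by rw [e3]; exact hn3) (by rw [e4]; exact hn)
    rw [e3, e4] at ha
    have ha' := congrArg v ha
    have e5 : v ((xc ((2 * n) • P) * xc (n • P) - W.a₄) ^ 2) = 1 := by
      have : v (xc ((2 * n) • P) * xc (n • P)) = 1 := by rw [map_mul, hd, h1, mul_one]
      rw [map_pow, Valuation.map_sub_eq_of_lt_left, this, one_pow]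
      rw [this]; exact ha4
    rw [map_mul, map_mul, e5, h1, mul_one, map_pow] at ha'
    have h3 := hE1 (3 * n) hn3
    have h4 : v (xc ((2 * n) • P) - xc (n • P)) ^ 2 < 1 := pow_lt_one₀ zero_le hdiff two_ne_zero
    exact absurd ha' (gz_mul_lt_one h3 h4).ne
  -- claim 2
  have claim2 : ∀ n : ℤ, ¬ (p : ℤ) ∣ n → v W.a₄ < v (xc (n • P)) := by
    intro n hn
    by_contra hcon
    rw [not_lt] at hcon
    have hd := congrArg v (hdbl n hn)
    have hV0 : 0 < v W.a₄ := zero_lt_iff.mpr ((map_ne_zero v).mpr ha40)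
    have h1 : v (xc (n • P) ^ 2) < v W.a₄ := by
      rw [map_pow, sq]
      calc v (xc (n • P)) * v (xc (n • P)) ≤ v W.a₄ * v (xc (n • P)) := by gcongr
        _ < v W.a₄ * 1 := by gcongr; exact claim1 n hn
        _ = v W.a₄ := mul_one _
    have e1 : v ((xc (n • P) ^ 2 - W.a₄) ^ 2) = v W.a₄ ^ 2 := by
      rw [map_pow, Valuation.map_sub_eq_of_lt_right _ h1]
    have e2 : v (4 * xc (n • P) ^ 2 + W.b₂ * xc (n • P) + 4 * W.a₄) ≤ v W.a₄ := by
      refine v.map_add_le (v.map_add_le ?_ ?_) ?_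
      · rw [map_mul]
        calc v 4 * v (xc (n • P) ^ 2) ≤ 1 * v W.a₄ := by gcongr
          _ = v W.a₄ := one_mul _
      · rw [map_mul, hb2, one_mul]; exact hcon
      · rw [map_mul]
        calc v 4 * v W.a₄ ≤ 1 * v W.a₄ := by gcongr
          _ = v W.a₄ := one_mul _
    rw [map_mul, map_mul, e1] at hd
    have hn2 := h2n n hn 2 (by norm_num) (by norm_num)
    have h3 := claim1 (2 * n) hn2
    have h4 : v (xc (n • P)) * v (4 * xc (n • P) ^ 2 + W.b₂ * xc (n • P) + 4 * W.a₄)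
        ≤ v W.a₄ ^ 2 := by rw [sq (v W.a₄)]; exact mul_le_mul' hcon e2
    have h5 : v (xc ((2 * n) • P)) *
      (v (xc (n • P)) * v (4 * xc (n • P) ^ 2 + W.b₂ * xc (n • P) + 4 * W.a₄)) < v W.a₄ ^ 2 := by
      calc _ ≤ v (xc ((2 * n) • P)) * v W.a₄ ^ 2 := by gcongr
        _ < 1 * v W.a₄ ^ 2 := by
          have : 0 < v W.a₄ ^ 2 := pow_pos hV0 2
          gcongr
        _ = _ := one_mul _
    exact absurd hd h5.ne
  obtain ⟨h, rfl⟩ : ∃ h, p = 2 * h + 1 := hp.odd_of_ne_two (by omega)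
  have := annulus v h (fun n => xc (n • P)) W.a₄ (v W.a₄) rfl hp
    (by
      intro m n hm hn hmn hmn'
      have h1 := congrArg v (hadd m n hm hn hmn hmn')
      simpa only [map_mul, map_pow] using h1)
    (by
      intro n hn
      have h1 := congrArg v (hdbl n hn)
      have e2 : v (4 * xc (n • P) ^ 2 + W.b₂ * xc (n • P) + 4 * W.a₄) = v (xc (n • P)) := by
        have hpos : 0 < v (xc (n • P)) := lt_of_le_of_lt zero_le (claim2 n hn)
        have e3 : v (W.b₂ * xc (n • P)) = v (xc (n • P)) := by rw [map_mul, hb2, one_mul]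
        have e4 : v (4 * xc (n • P) ^ 2 + W.b₂ * xc (n • P)) = v (xc (n • P)) := by
          rw [Valuation.map_add_eq_of_lt_right, e3]
          rw [e3, map_mul, map_pow, sq, ← mul_assoc]
          exact mul_lt_of_lt_one_left hpos (mul_lt_one_of_lt_of_le hv4 (claim1 n hn).le)
        rw [Valuation.map_add_eq_of_lt_left, e4]
        rw [e4, map_mul]
        calc v 4 * v W.a₄ ≤ 1 * v W.a₄ := by gcongr
          _ = v W.a₄ := one_mul _
          _ < _ := claim2 n hn
      rw [map_mul, map_mul, e2, map_pow, ← sq] at h1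
      exact h1)
    (fun n hn => ⟨claim2 n hn, claim1 n hn⟩)
    (by
      intro n
      have : ((2 * h + 1 : ℕ) : ℤ) • P = 0 := by rw [natCast_zsmul]; exact hpP
      simp only [add_smul n, this, add_zero])
    (by intro n; simp only [neg_smul, xc_neg])
  obtain ⟨μ, hμ, j, hj⟩ := this
  simp only [one_smul] at hj
  have h1 : ¬ ((2 * h + 1 : ℕ) : ℤ) ∣ 1 := hnd 1 (by norm_num) (by norm_num)
  have c1 := claim1 1 h1
  have c2 := claim2 1 h1
  rw [one_smul] at c1 c2
  exact ⟨μ, hμ, j, hj, c2, c1⟩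

end Fermat.Agent.S13lib
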