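import Fermat.Agent.S13lib.Node
import Fermat.Agent.S13lib.NoPoint
import Fermat.Agent.S13lib.Good
import Fermat.Agent.S13lib.Rational
import Fermat.Agent.Wiring.FreyModel

set_option autoImplicit false

/-! # Local facts about the Frey curve -/

namespace Fermat.Agent.S13lib

open WeierstrassCurve WeierstrassCurve.Affine WeierstrassCurve.Affine.Point
open Fermat.Agent.EC Fermat.Agent.DivPoly

local notation "Qbar" => AlgebraicClosure ℚ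

variable (P : FreyPackage)

section coeffs

theorem frey_a₁ : (P.freyCurve⁄Qbar).a₁ = 1 := by
  change algebraMap ℚ Qbar 1 = 1
  exact map_one _

theorem frey_a₂ : (P.freyCurve⁄Qbar).a₂ = (P.freyCurveInt.a₂ : Qbar) := by
  change algebraMap ℚ Qbar P.freyCurve.a₂ = _
  rw [← Wiring.freyCurveInt_map]
  change algebraMap ℚ Qbar ((P.freyCurveInt.a₂ : ℤ) : ℚ) = _
  rw [map_intCast]

theorem frey_a₃ : (P.freyCurve⁄Qbar).a₃ = 0 := by
  change algebraMap ℚ Qbar 0 = 0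
  exact _root_.map_zero _

theorem frey_a₄ : (P.freyCurve⁄Qbar).a₄ = (P.freyCurveInt.a₄ : Qbar) := by
  change algebraMap ℚ Qbar P.freyCurve.a₄ = _
  rw [← Wiring.freyCurveInt_map]
  change algebraMap ℚ Qbar ((P.freyCurveInt.a₄ : ℤ) : ℚ) = _
  rw [map_intCast]

theorem frey_a₆ : (P.freyCurve⁄Qbar).a₆ = 0 := by
  change algebraMap ℚ Qbar 0 = 0
  exact _root_.map_zero _

theorem frey_Δ : (P.freyCurve⁄Qbar).Δ = (P.freyCurveInt.Δ : Qbar) := by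
  have h1 : (P.freyCurve⁄Qbar).Δ = algebraMap ℚ Qbar P.freyCurve.Δ := map_Δ _ _
  rw [h1, ← Wiring.freyCurveInt_map, map_Δ]
  exact map_intCast _ _

theorem frey_a₄_eq : 16 * (P.freyCurve⁄Qbar).a₄ = -((P.a : Qbar) ^ P.p) * (P.b : Qbar) ^ P.p := by
  rw [frey_a₄]
  exact_mod_cast congrArg (fun z : ℤ => (z : Qbar)) (Wiring.freyCurveInt_a4 P)

theorem frey_a₂_eq : 4 * (P.freyCurve⁄Qbar).a₂ = (P.b : Qbar) ^ P.p - 1 - (P.a : Qbar) ^ P.p := by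
  rw [frey_a₂]
  exact_mod_cast congrArg (fun z : ℤ => (z : Qbar)) (Wiring.freyCurveInt_a2 P)

theorem frey_b₂ : (P.freyCurve⁄Qbar).b₂ = (P.b : Qbar) ^ P.p - (P.a : Qbar) ^ P.p := by
  rw [WeierstrassCurve.b₂, frey_a₁, frey_a₂_eq]; ring

theorem frey_b₄ : (P.freyCurve⁄Qbar).b₄ = 2 * (P.freyCurve⁄Qbar).a₄ := by
  rw [WeierstrassCurve.b₄, frey_a₁, frey_a₃]; ring

theorem frey_b₆ : (P.freyCurve⁄Qbar).b₆ = 0 := by
  rw [WeierstrassCurve.b₆, frey_a₃, frey_a₆]; ring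

theorem frey_b₈ : (P.freyCurve⁄Qbar).b₈ = - (P.freyCurve⁄Qbar).a₄ ^ 2 := by
  rw [WeierstrassCurve.b₈, frey_a₁, frey_a₃, frey_a₆]; ring

theorem frey_integral (A : ValuationSubring Qbar) : IntegralFor A.valuation (P.freyCurve⁄Qbar) := by
  refine ⟨?_, ?_, ?_, ?_, ?_⟩
  · rw [frey_a₁, map_one]
  · rw [frey_a₂]; exact v_intCast_le_one _ _
  · rw [frey_a₃, _root_.map_zero]; exact zero_le
  · rw [frey_a₄]; exact v_intCast_le_one _ _
  · rw [frey_a₆, _root_.map_zero]; exact zero_le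

theorem frey_a₄_ne_zero : (P.freyCurve⁄Qbar).a₄ ≠ 0 := by
  intro h
  have := frey_a₄_eq P
  rw [h, mul_zero] at this
  have ha : (P.a : Qbar) ^ P.p ≠ 0 := pow_ne_zero _ (by exact_mod_cast P.ha0)
  have hb : (P.b : Qbar) ^ P.p ≠ 0 := pow_ne_zero _ (by exact_mod_cast P.hb0)
  exact mul_ne_zero (neg_ne_zero.mpr ha) hb this.symm

end coeffs

variable {A : ValuationSubring Qbar} {ℓ : ℕ}

theorem frey_node_ab (hℓ : ℓ.Prime) (hA : A.LiesOverPrime ℓ) (h : (ℓ : ℤ) ∣ P.a * P.b) :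
    NodeAt A.valuation (P.freyCurve⁄Qbar) (algebraMap ℚ Qbar 0) (algebraMap ℚ Qbar 0) := by
  have hℓ' : Prime (ℓ : ℤ) := Nat.prime_iff_prime_int.mp hℓ
  have hdvd : (ℓ : ℤ) ∣ P.freyCurveInt.a₄ := by
    by_cases h2 : ℓ = 2
    · subst h2
      have h1 := Wiring.freyCurveInt_a4 P
      obtain ⟨k, hk⟩ := Wiring.thirtytwo_dvd_bp P
      rw [hk] at h1
      refine ⟨-(P.a ^ P.p) * k, ?_⟩
      have : (16 : ℤ) * P.freyCurveInt.a₄ = 16 * (2 * (-(P.a ^ P.p) * k)) := by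
        rw [h1]; ring
      exact_mod_cast mul_left_cancel₀ (by norm_num) this
    · have h1 : (ℓ : ℤ) ∣ 16 * P.freyCurveInt.a₄ := by
        rw [Wiring.freyCurveInt_a4, neg_mul, ← mul_pow, dvd_neg]
        exact dvd_pow h P.hp0
      rcases hℓ'.dvd_or_dvd h1 with h3 | h3
      · exfalso
        have h4 : (ℓ : ℤ) ∣ 2 := hℓ'.dvd_of_dvd_pow (n := 4) (by norm_num; exact h3)
        have h5 : ℓ ∣ 2 := by exact_mod_cast h4
        exact h2 ((Nat.prime_dvd_prime_iff_eq hℓ Nat.prime_two).1 h5)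
      · exact h3
  have hnab : ¬ ((ℓ : ℤ) ∣ P.a ∧ (ℓ : ℤ) ∣ P.b) := by
    rintro ⟨h1, h2⟩
    have := dvd_gcd h1 h2
    rw [P.hgcdab] at this
    exact hℓ'.not_isUnit (isUnit_of_dvd_one this)
  have hunit : ¬ (ℓ : ℤ) ∣ P.b ^ P.p - P.a ^ P.p := by
    intro h3
    rcases hℓ'.dvd_or_dvd h with h1 | h1
    · refine hnab ⟨h1, hℓ'.dvd_of_dvd_pow (n := P.p) ?_⟩
      exact (dvd_sub_left (dvd_pow h1 P.hp0)).mp h3
    · refine hnab ⟨hℓ'.dvd_of_dvd_pow (n := P.p) ?_, h1⟩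
      exact (dvd_sub_right (dvd_pow h1 P.hp0)).mp h3
  rw [_root_.map_zero]
  refine ⟨?_, ?_, ?_, ?_, ?_, ?_, ?_⟩
  · rw [frey_a₆]; ring
  · rw [frey_a₃]; ring
  · simp
  · simp
  · have : 3 * (0 : Qbar) ^ 2 + 2 * (P.freyCurve⁄Qbar).a₂ * 0 + (P.freyCurve⁄Qbar).a₄
      - (P.freyCurve⁄Qbar).a₁ * 0 = (P.freyCurve⁄Qbar).a₄ := by ring
    rw [this, frey_a₄]
    exact v_intCast_lt_one hA hdvd
  · have : 3 * (0 : Qbar) ^ 2 + 2 * (P.freyCurve⁄Qbar).a₂ * 0 + (P.freyCurve⁄Qbar).a₄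
      - (P.freyCurve⁄Qbar).a₁ * 0 = (P.freyCurve⁄Qbar).a₄ := by ring
    rw [this]
    exact frey_a₄_ne_zero P
  · have : (P.freyCurve⁄Qbar).a₁ ^ 2 + 4 * ((P.freyCurve⁄Qbar).a₂ + 3 * 0)
      = ((P.b ^ P.p - P.a ^ P.p : ℤ) : Qbar) := by
      rw [frey_a₁]; push_cast; linear_combination frey_a₂_eq P
    rw [this]
    exact v_intCast_eq_one' hℓ hA hunit

theorem frey_node_c (hℓ : ℓ.Prime) (hA : A.LiesOverPrime ℓ) (h : (ℓ : ℤ) ∣ P.c) :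
    NodeAt A.valuation (P.freyCurve⁄Qbar) (algebraMap ℚ Qbar ((P.a : ℚ) ^ P.p / 4))
      (algebraMap ℚ Qbar (-((P.a : ℚ) ^ P.p / 8))) := by
  have hℓ' : Prime (ℓ : ℤ) := Nat.prime_iff_prime_int.mp hℓ
  have hna : ¬ (ℓ : ℤ) ∣ P.a := by
    intro h1
    have := dvd_gcd h1 h
    rw [P.hgcdac] at this
    exact hℓ'.not_isUnit (isUnit_of_dvd_one this)
  have hnb : ¬ (ℓ : ℤ) ∣ P.b := by
    intro h1
    have := dvd_gcd h1 h
    rw [P.hgcdbc] at this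
    exact hℓ'.not_isUnit (isUnit_of_dvd_one this)
  have hℓ2 : ¬ (ℓ : ℤ) ∣ 2 := by
    intro h1
    have h5 : ℓ ∣ 2 := by exact_mod_cast h1
    have h6 := (Nat.prime_dvd_prime_iff_eq hℓ Nat.prime_two).1 h5
    subst h6
    exact hnb (by exact_mod_cast Wiring.two_dvd_b P)
  have hv2 : A.valuation (2 : Qbar) = 1 := by
    have := v_intCast_eq_one' (L := Qbar) hℓ hA hℓ2
    simpa using this
  have hv4 : A.valuation (4 : Qbar) = 1 := by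
    rw [show (4 : Qbar) = 2 ^ 2 by norm_num, map_pow, hv2, one_pow]
  have hv8 : A.valuation (8 : Qbar) = 1 := by
    rw [show (8 : Qbar) = 2 ^ 3 by norm_num, map_pow, hv2, one_pow]
  have hv16 : A.valuation (16 : Qbar) = 1 := by
    rw [show (16 : Qbar) = 2 ^ 4 by norm_num, map_pow, hv2, one_pow]
  have ea2 := frey_a₂_eq P
  have ea4 := frey_a₄_eq P
  have hva : A.valuation ((P.a : Qbar) ^ P.p) = 1 := by
    rw [map_pow, v_intCast_eq_one' hℓ hA hna, one_pow]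
  have hc : (P.a : Qbar) ^ P.p + (P.b : Qbar) ^ P.p = (P.c : Qbar) ^ P.p := by
    exact_mod_cast congrArg (fun z : ℤ => (z : Qbar)) P.hFLT
  have hvc : A.valuation ((P.c : Qbar) ^ P.p) < 1 :=
    v_pow_lt_one _ (v_intCast_lt_one hA h) P.hp0
  have hc0 : (P.c : Qbar) ^ P.p ≠ 0 := pow_ne_zero _ (by exact_mod_cast P.hc0)
  have ha0 : (P.a : Qbar) ^ P.p ≠ 0 := pow_ne_zero _ (by exact_mod_cast P.ha0)
  have e1 : algebraMap ℚ Qbar ((P.a : ℚ) ^ P.p / 4) = (P.a : Qbar) ^ P.p / 4 := by simp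
  have e2 : algebraMap ℚ Qbar (-((P.a : ℚ) ^ P.p / 8)) = -((P.a : Qbar) ^ P.p / 8) := by simp
  rw [e1, e2]
  generalize (P.a : Qbar) ^ P.p = a at *
  generalize (P.b : Qbar) ^ P.p = b at *
  generalize (P.c : Qbar) ^ P.p = c at *
  have ea2' : (P.freyCurve⁄Qbar).a₂ = (b - 1 - a) / 4 := by rw [← ea2]; ring
  have ea4' : (P.freyCurve⁄Qbar).a₄ = -a * b / 16 := by rw [← ea4]; ring
  have e4 : 3 * (a / 4) ^ 2 + 2 * (P.freyCurve⁄Qbar).a₂ * (a / 4) + (P.freyCurve⁄Qbar).a₄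
      - (P.freyCurve⁄Qbar).a₁ * -(a / 8) = a * c / 16 := by
    rw [frey_a₁, ea2', ea4', ← hc]; ring
  refine ⟨?_, ?_, ?_, ?_, ?_, ?_, ?_⟩
  · rw [frey_a₁, frey_a₃, frey_a₆, ea2', ea4']; ring
  · rw [frey_a₁, frey_a₃]; ring
  · rw [map_div₀, hv4, div_one, hva]
  · rw [Valuation.map_neg, map_div₀, hv8, div_one, hva]
  · rw [e4, map_div₀, hv16, div_one]
    exact v_mul_lt_one _ hva.le hvc
  · rw [e4]
    exact div_ne_zero (mul_ne_zero ha0 hc0) (by norm_num)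
  · have : (P.freyCurve⁄Qbar).a₁ ^ 2 + 4 * ((P.freyCurve⁄Qbar).a₂ + 3 * (a / 4)) = a + c := by
      rw [frey_a₁, ea2', ← hc]; ring
    rw [this, Valuation.map_add_eq_of_lt_left, hva]
    rw [hva]; exact hvc

theorem frey_NS_sub (hℓ : ℓ.Prime) (hA : A.LiesOverPrime ℓ) {σ : Qbar ≃ₐ[ℚ] Qbar}
    (hσ : σ ∈ A.inertiaSubgroupIn ℚ) (x : (P.freyCurve⁄Qbar).Point) :
    NS A.valuation (σ • x - x) := by
  have hW := frey_integral P A
  have halg : Algebra.IsAlgebraic ℚ Qbar := AlgebraicClosure.isAlgebraic ℚ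
  by_cases hab : (ℓ : ℤ) ∣ P.a * P.b
  · exact NS_smul_sub (frey_node_ab P hℓ hA hab) hW x hσ
  by_cases hc : (ℓ : ℤ) ∣ P.c
  · exact NS_smul_sub (frey_node_c P hℓ hA hc) hW x hσ
  apply NS_of_good hW
  rw [frey_Δ]
  apply v_intCast_eq_one' hℓ hA
  rw [Wiring.dvd_Δ_iff P hℓ]
  intro h
  rcases (Nat.prime_iff_prime_int.mp hℓ).dvd_or_dvd h with h | h
  · exact hab h
  · exact hc h

/-- `(σ - 1)² x` is in the kernel of reduction -/
theorem frey_sq (hℓ : ℓ.Prime) (hA : A.LiesOverPrime ℓ) {σ : Qbar ≃ₐ[ℚ] Qbar}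
    (hσ : σ ∈ A.inertiaSubgroupIn ℚ) (x : (P.freyCurve⁄Qbar).Point) :
    E1 A.valuation (σ • (σ • x - x) - (σ • x - x)) :=
  E1_smul_sub_of_NS (frey_integral P A) (frey_NS_sub P hℓ hA hσ x) hσ

end Fermat.Agent.S13lib
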